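/-
P-ORD row 1155 (B1-D-HART), part 1 : `ℚ̄`-level basics.  helper31.

* `hb_mem_of_isIntegralElem` : a valuation subring containing a subring `R` contains every element
  integral over `R`;
* `hb_nmChart_le` : the chart `B̄(y)` of a place `P` lies in the composite valuation ring
  `{f | f(P) ∈ A}` as soon as `y` does;
* `hb_sep` : SEPARATION of centres : if `P''` is finite in the chart of `P` and the centres of
  `P''` and `P` are different, some `t ∈ B̄` vanishes at `P''` and is a unit at (the centre of) `P`.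
-/
import Fermat.Agent.H84.ORD.NodalSpecA
import Fermat.Agent.H70.SS.RatPlaceModular

set_option autoImplicit false
set_option linter.unusedSectionVars false
set_option linter.style.haveILetI false

noncomputable section

open AlgebraicCurve ModularCurve

namespace Fermat.Agent.H31.ORD

open Fermat.Agent.H72.FF Fermat.Agent.H18.ORD Fermat.Agent.H66 Fermat.Agent.H84.ORD

/-- A valuation subring containing a subring `R` contains every element integral over `R`. -/
theorem hb_mem_of_isIntegralElem {F : Type*} [Field F] (R : Subring F) (V : ValuationSubring F)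
    (hR : ∀ r ∈ R, r ∈ V) {f : F} (hf : R.subtype.IsIntegralElem f) : f ∈ V := by
  obtain ⟨p, hp, hps⟩ := hf
  by_contra hsV
  have hlt : 1 < V.valuation f := by
    rw [← not_le]
    exact fun h => hsV ((V.valuation_le_one_iff f).1 h)
  have hn : p.natDegree ≠ 0 := by
    intro hn
    rw [Polynomial.natDegree_eq_zero] at hn
    obtain ⟨c, rfl⟩ := hn
    have h1 : c = 1 := by simpa using hp.leadingCoeff
    subst h1
    simp at hps
  have hcoef : ∀ i, V.valuation (R.subtype (p.coeff i)) ≤ 1 := fun i =>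
    (V.valuation_le_one_iff _).2 (hR _ (p.coeff i).2)
  rw [Polynomial.eval₂_eq_sum_range, Finset.sum_range_succ, hp.coeff_natDegree, map_one,
    one_mul, add_eq_zero_iff_eq_neg] at hps
  have h2 := congrArg V.valuation hps
  rw [Valuation.map_neg, map_pow] at h2
  refine absurd h2 (ne_of_lt (V.valuation.map_sum_lt ?_ ?_))
  · exact pow_ne_zero _ (ne_of_gt (lt_trans zero_lt_one hlt))
  · intro i hi
    rw [Finset.mem_range] at hi
    rw [map_mul, map_pow]
    exact mul_lt_of_le_one_of_lt (hcoef i) (pow_lt_pow_right₀ hlt hi)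

section Chart

variable {N : ℕ} [NeZero N] (A : ValuationSubring Qb) (P : Place Qb (FLb N))

/-- places of `ℚ̄(X₀(N))` have degree one -/
theorem hb_deg (P : Place Qb (FLb N)) : P.deg = 1 :=
  Fermat.Agent.H70.SS.ss_deg_eq_one_bar N P

/-- `A[y] ⊆ {f | f(P) ∈ A}` if `y(P) ∈ A`. -/
theorem hb_nmPoly_le {y : FLb N} (hy : y ∈ nmInt A P) :
    ∀ r ∈ nmPoly N A y, r ∈ nmComp A P (hb_deg P) := by
  intro r hr
  refine Subring.closure_le.2 ?_ hr
  rintro z (⟨c, hc, rfl⟩ | hz)
  · exact algebraMap_mem_nmComp A P (hb_deg P) hc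
  · rw [Set.mem_singleton_iff] at hz
    subst hz
    exact hy

/-- `B̄(y) ⊆ {f | f(P) ∈ A}` if `y(P) ∈ A`. -/
theorem hb_nmChart_le {y : FLb N} (hy : y ∈ nmInt A P) {f : FLb N} (hf : f ∈ nmChart N A y) :
    f ∈ nmInt A P :=
  hb_mem_of_isIntegralElem (nmPoly N A y) (nmComp A P (hb_deg P)) (hb_nmPoly_le A P hy)
    ((mem_nmChart_iff N A y f).1 hf)

/-- constants of `A` lie in every chart -/
theorem hb_const_mem_nmChart (y : FLb N) {c : Qb} (hc : c ∈ A) :
    algebraMap Qb (FLb N) c ∈ nmChart N A y := by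
  rw [mem_nmChart_iff]
  have h : algebraMap Qb (FLb N) c ∈ nmPoly N A y :=
    Subring.subset_closure (Or.inl ⟨c, hc, rfl⟩)
  exact ⟨Polynomial.X - Polynomial.C ⟨_, h⟩, Polynomial.monic_X_sub_C _, by simp⟩

/-- the coordinate lies in its chart -/
theorem hb_self_mem_nmChart (y : FLb N) : y ∈ nmChart N A y := by
  rw [mem_nmChart_iff]
  have h : y ∈ nmPoly N A y := Subring.subset_closure (Or.inr rfl)
  exact ⟨Polynomial.X - Polynomial.C ⟨_, h⟩, Polynomial.monic_X_sub_C _, by simp⟩

end Chart

section Values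

variable {N : ℕ} [NeZero N] (A : ValuationSubring Qb) (P : Place Qb (FLb N))

theorem hb_exists_hasValue {f : FLb N} (hf : f = 0 ∨ 0 ≤ P.ord f) : ∃ c : Qb, HasValue P f c := by
  apply nm_exists_hasValue P (hb_deg P)
  rw [ValuationSubring.valuation_le_one_iff]
  exact (Fermat.Agent.H23.mem_iff_ord P).2 hf

theorem hb_ord_nonneg_of_hasValue {f : FLb N} {c : Qb} (hf : HasValue P f c) :
    f = 0 ∨ 0 ≤ P.ord f := by
  have h := nmv_le_one_of_hasValue P hf
  rw [ValuationSubring.valuation_le_one_iff] at h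
  exact (Fermat.Agent.H23.mem_iff_ord P).1 h

/-- `c ∉ A → c⁻¹ ∈ 𝔪_A` -/
theorem hb_inv_mem_nonunits {c : Qb} (hc : c ∉ A) : c⁻¹ ∈ A.nonunits := by
  rw [ValuationSubring.mem_nonunits_iff_or, inv_inv]
  exact Or.inr hc

/-- a unit value minus a non-unit value is not a non-unit -/
theorem hb_sub_not_mem_nonunits {u v : Qb} (_hu : u ∈ A) (hu' : u ∉ A.nonunits)
    (hv : v ∈ A.nonunits) : u - v ∉ A.nonunits := by
  intro h
  apply hu'
  have : u = (u - v) + v := by ring
  rw [this]
  rw [ValuationSubring.mem_nonunits_iff] at h hv ⊢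
  exact lt_of_le_of_lt (A.valuation.map_add _ _) (max_lt h hv)

theorem hb_sub_not_mem_nonunits' {u v : Qb} (hu : u ∈ A) (hu' : u ∉ A.nonunits)
    (hv : v ∈ A.nonunits) : v - u ∉ A.nonunits := by
  intro h
  apply hb_sub_not_mem_nonunits A hu hu' hv
  have : u - v = -(v - u) := by ring
  rw [this]
  rw [ValuationSubring.mem_nonunits_iff] at h ⊢
  rwa [Valuation.map_neg]

/-- an element with a value outside `𝔪_A` is not in `𝔐_P` -/
theorem hb_not_mem_nmMax {f : FLb N} {c : Qb} (hf : HasValue P f c) (hc : c ∉ A.nonunits) :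
    f ∉ nmMax A P := by
  rintro ⟨d, hd, hfd⟩
  rw [nm_hasValue_unique P hf hfd] at hc
  exact hc hd

/-- the coordinate of the chart of `P` is either `j` or `j⁻¹` -/
theorem hb_nmY_eq : nmY A P = nmJ N ∨ nmY A P = (nmJ N)⁻¹ := by
  classical
  unfold nmY
  split_ifs
  · exact Or.inl rfl
  · exact Or.inr rfl

/-- the coordinate of the chart of `P` has its value at `P` in `A` -/
theorem hb_nmY_mem : nmY A P ∈ nmInt A P := by
  classical
  unfold nmY
  split_ifs with h
  · exact h
  · by_cases hj : nmJ N = 0 ∨ 0 ≤ P.ord (nmJ N)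
    · obtain ⟨c, hc⟩ := hb_exists_hasValue P hj
      have hcA : c ∉ A := fun hcA => h ⟨c, hcA, hc⟩
      have hc0 : c ≠ 0 := fun h0 => hcA (h0 ▸ A.zero_mem)
      exact ⟨c⁻¹, ValuationSubring.nonunits_subset (hb_inv_mem_nonunits A hcA),
        nm_hasValue_inv P hc hc0⟩
    · refine ⟨0, A.zero_mem, nm_hasValue_zero_inv P ?_⟩
      intro hle
      rw [ValuationSubring.valuation_le_one_iff] at hle
      exact hj ((Fermat.Agent.H23.mem_iff_ord P).1 hle)

/-- if the chart of `P` is `j⁻¹`, then `j⁻¹(P) ∈ 𝔪_A` -/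
theorem hb_nmY_mem_nmMax_of_ne (h : nmY A P ≠ nmJ N) : nmY A P ∈ nmMax A P := by
  classical
  have hnot : nmJ N ∉ nmInt A P := by
    intro hmem
    apply h
    unfold nmY
    rw [if_pos hmem]
  have hy : nmY A P = (nmJ N)⁻¹ := (hb_nmY_eq A P).resolve_left h
  obtain ⟨c, hcA, hc⟩ := hb_nmY_mem A P
  by_cases hcu : c ∈ A.nonunits
  · exact ⟨c, hcu, hc⟩
  · exfalso
    apply hnot
    have hc0 : c ≠ 0 := by
      intro h0
      apply hcu
      rw [h0, ValuationSubring.mem_nonunits_iff]
      simp
    have hci : c⁻¹ ∈ A := by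
      by_contra hci
      apply hcu
      have := hb_inv_mem_nonunits A hci
      rwa [inv_inv] at this
    refine ⟨c⁻¹, hci, ?_⟩
    have := nm_hasValue_inv P hc hc0
    rwa [hy, inv_inv] at this

/-- **SEPARATION of centres.**  If `P''` is finite in the chart of `P` and the centres of `P''`
and `P` are different, some `t ∈ B̄` vanishes at `P''` and has a unit value at `P`. -/
theorem hb_sep (P'' : Place Qb (FLb N)) (hfin : nmY A P = 0 ∨ 0 ≤ P''.ord (nmY A P))
    (hne : nmCentre A P'' ≠ nmCentre A P) :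
    ∃ t ∈ nmChart N A (nmY A P), t ≠ 0 ∧ 0 < P''.ord t ∧ t ∉ nmMax A P := by
  classical
  -- it suffices to find `t` with value `0` at `P''` and a value outside `𝔪_A` at `P`
  suffices h : ∃ t ∈ nmChart N A (nmY A P), HasValue P'' t 0 ∧
      ∃ u : Qb, HasValue P t u ∧ u ∉ A.nonunits by
    obtain ⟨t, ht, h0, u, hu, huA⟩ := h
    have htM : t ∉ nmMax A P := hb_not_mem_nmMax A P hu huA
    have ht0 : t ≠ 0 := by
      rintro rfl
      apply htM
      refine ⟨0, ?_, ?_⟩
      · rw [ValuationSubring.mem_nonunits_iff]; simp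
      · have := nm_hasValue_const (N := N) P (0 : Qb)
        rwa [map_zero] at this
    refine ⟨t, ht, ht0, ?_, htM⟩
    rcases h0 with h0 | h0
    · rw [map_zero] at h0
      exact absurd h0 ht0
    · rw [map_zero, sub_zero] at h0
      omega
  obtain ⟨cP, hcPA, hcP⟩ := hb_nmY_mem A P
  obtain ⟨c'', hc''⟩ := hb_exists_hasValue P'' hfin
  by_cases hcA : c'' ∈ A
  · -- `y(P'') ∈ A`
    have hyP'' : nmY A P ∈ nmInt A P'' := ⟨c'', hcA, hc''⟩
    by_cases hch : nmY A P'' = nmY A P
    · -- same chart: the two maximal ideals differ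
      have hex : ∃ f ∈ nmChart N A (nmY A P),
          (f ∈ nmMax A P'' ∧ f ∉ nmMax A P) ∨ (f ∉ nmMax A P'' ∧ f ∈ nmMax A P) := by
        by_contra hcon
        push Not at hcon
        apply hne
        ext f
        rw [mem_nmCentre_iff, mem_nmCentre_iff, hch]
        constructor
        · rintro ⟨hf, hfM⟩
          exact ⟨hf, (hcon f hf).1 hfM⟩
        · rintro ⟨hf, hfM⟩
          refine ⟨hf, ?_⟩
          by_contra hfP
          exact (hcon f hf).2 hfP hfM
      obtain ⟨f, hf, hcase⟩ := hex
      obtain ⟨v, hvA, hv⟩ := hb_nmChart_le A P (hb_nmY_mem A P) hf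
      obtain ⟨v'', hv''A, hv''⟩ := hb_nmChart_le A P'' hyP'' hf
      refine ⟨f - algebraMap Qb (FLb N) v'', ?_, ?_, v - v'', ?_, ?_⟩
      · exact (nmChart N A (nmY A P)).sub_mem hf (hb_const_mem_nmChart A _ hv''A)
      · have := nm_hasValue_sub P'' hv'' (nm_hasValue_const P'' v'')
        rwa [sub_self] at this
      · exact nm_hasValue_sub P hv (nm_hasValue_const P v'')
      · rcases hcase with ⟨h1, h2⟩ | ⟨h1, h2⟩
        · have hv''u : v'' ∈ A.nonunits := by
            obtain ⟨d, hd, hfd⟩ := h1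
            rwa [nm_hasValue_unique P'' hv'' hfd]
          have hvu : v ∉ A.nonunits := fun hvu => h2 ⟨v, hvu, hv⟩
          exact hb_sub_not_mem_nonunits A hvA hvu hv''u
        · have hv''u : v'' ∉ A.nonunits := fun hvu => h1 ⟨v'', hvu, hv''⟩
          have hvu : v ∈ A.nonunits := by
            obtain ⟨d, hd, hfd⟩ := h2
            rwa [nm_hasValue_unique P hv hfd]
          exact hb_sub_not_mem_nonunits' A hv''A hv''u hvu
    · -- different charts: `y = j⁻¹`, `j(P'') ∈ A`, `y(P'')` is a unit
      have hyne : nmY A P ≠ nmJ N := by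
        intro hy
        apply hch
        unfold nmY
        have : nmJ N ∈ nmInt A P'' := hy ▸ hyP''
        rw [if_pos this]
        rw [hy] at hyP''
        unfold nmY at hy
        exact hy.symm
      have hy : nmY A P = (nmJ N)⁻¹ := (hb_nmY_eq A P).resolve_left hyne
      have hy'' : nmY A P'' = nmJ N := by
        rcases hb_nmY_eq A P'' with h | h
        · exact h
        · exact absurd (h.trans hy.symm) hch
      have hj'' : nmJ N ∈ nmInt A P'' := hy'' ▸ hb_nmY_mem A P''
      obtain ⟨d, hdA, hd⟩ := hj''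
      have hcd : c'' * d = 1 := by
        have h1 := nm_hasValue_mul P'' hc'' hd
        have hj0 : nmJ N ≠ 0 := by
          intro h0
          rw [hy, h0, inv_zero] at hyne
          exact hyne rfl
        rw [hy, inv_mul_cancel₀ hj0] at h1
        have h2 : HasValue P'' (1 : FLb N) 1 := by
          have := nm_hasValue_const (N := N) P'' (1 : Qb)
          rwa [map_one] at this
        exact nm_hasValue_unique P'' h1 h2
      have hc''u : c'' ∉ A.nonunits := by
        intro hu
        rw [ValuationSubring.mem_nonunits_iff] at hu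
        have hd1 : A.valuation d ≤ 1 := (ValuationSubring.valuation_le_one_iff _ _).2 hdA
        have : A.valuation (c'' * d) < 1 := by
          rw [map_mul]
          calc A.valuation c'' * A.valuation d ≤ A.valuation c'' * 1 := by gcongr
            _ = A.valuation c'' := mul_one _
            _ < 1 := hu
        rw [hcd, map_one] at this
        exact lt_irrefl _ this
      have hcPu : cP ∈ A.nonunits := by
        obtain ⟨e, he, hye⟩ := hb_nmY_mem_nmMax_of_ne A P hyne
        rwa [nm_hasValue_unique P hcP hye]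
      refine ⟨nmY A P - algebraMap Qb (FLb N) c'', ?_, ?_, cP - c'', ?_, ?_⟩
      · exact (nmChart N A (nmY A P)).sub_mem (hb_self_mem_nmChart A _)
          (hb_const_mem_nmChart A _ hcA)
      · have := nm_hasValue_sub P'' hc'' (nm_hasValue_const P'' c'')
        rwa [sub_self] at this
      · exact nm_hasValue_sub P hcP (nm_hasValue_const P c'')
      · exact hb_sub_not_mem_nonunits' A hcA hc''u hcPu
  · -- `y(P'') ∉ A` : `t = c''⁻¹ y - 1`
    have hci : c''⁻¹ ∈ A.nonunits := hb_inv_mem_nonunits A hcA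
    have hc0 : c'' ≠ 0 := fun h0 => hcA (h0 ▸ A.zero_mem)
    refine ⟨algebraMap Qb (FLb N) c''⁻¹ * nmY A P - algebraMap Qb (FLb N) 1, ?_, ?_,
      c''⁻¹ * cP - 1, ?_, ?_⟩
    · exact (nmChart N A (nmY A P)).sub_mem
        ((nmChart N A (nmY A P)).mul_mem
          (hb_const_mem_nmChart A _ (ValuationSubring.nonunits_subset hci))
          (hb_self_mem_nmChart A _))
        (hb_const_mem_nmChart A _ A.one_mem)
    · have := nm_hasValue_sub P'' (nm_hasValue_mul P'' (nm_hasValue_const P'' c''⁻¹) hc'')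
        (nm_hasValue_const P'' 1)
      rwa [inv_mul_cancel₀ hc0, sub_self] at this
    · exact nm_hasValue_sub P (nm_hasValue_mul P (nm_hasValue_const P c''⁻¹) hcP)
        (nm_hasValue_const P 1)
    · have h1 : c''⁻¹ * cP ∈ A.nonunits := by
        rw [ValuationSubring.mem_nonunits_iff] at hci ⊢
        rw [map_mul]
        have : A.valuation cP ≤ 1 := (ValuationSubring.valuation_le_one_iff _ _).2 hcPA
        calc A.valuation c''⁻¹ * A.valuation cP ≤ A.valuation c''⁻¹ * 1 := by gcongr
          _ = A.valuation c''⁻¹ := mul_one _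
          _ < 1 := hci
      have h2 : (1 : Qb) ∉ A.nonunits := by
        rw [ValuationSubring.mem_nonunits_iff, map_one]
        exact lt_irrefl _
      exact hb_sub_not_mem_nonunits' A A.one_mem h2 h1

end Values


end Fermat.Agent.H31.ORD

end
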