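/-
P-ORD row 1155 (B1-D-HART), part 3 : THE MODEL-LEVEL INTERFACE (H2).  helper31.

`HartModelStatement M p` : local Hartogs on the model `chartClosure A₀ (ModelField K₁ (M p)) y`
(`y = j` or `j⁻¹`) at a PRIME ideal `𝔪`, with the vertical hypothesis split along the two
components: `g ∈ V_∞` is only assumed when `𝔮_∞ ⊆ 𝔪`, `g ∈ V_0` only when `𝔮_0 ⊆ 𝔪`.
-/
import Fermat.Agent.H7.SS2.Vertical
import Fermat.Agent.H45.SS.Hartogs

set_option autoImplicit false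

noncomputable section

open ModularCurve

namespace Fermat.Agent.H31.ORD

open Fermat.Agent.H22.KL Fermat.Agent.H45 Fermat.Agent.H82.SS Fermat.Agent.H7.SS2

/-- **(H2) MODEL-LEVEL LOCAL HARTOGS WITH COMPONENT HYPOTHESES.** -/
def HartModelStatement (M p : ℕ) [NeZero M] [NeZero p] : Prop :=
  ∀ (K₁ : Type) [Field K₁] [Algebra ℚ K₁] [FiniteDimensional ℚ K₁]
    (A₀ : Type) [CommRing A₀] [IsDomain A₀] [IsDiscreteValuationRing A₀]
    [Algebra A₀ K₁] [IsFractionRing A₀ K₁]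
    [Algebra A₀ (ModelField K₁ (M * p))] [IsScalarTower A₀ K₁ (ModelField K₁ (M * p))]
    (_hqA : ¬ IsUnit ((p : ℕ) : A₀)) (_hp : p.Prime) (_hpM : ¬ p ∣ M)
    (x : ModelField K₁ (M * p)) (_hx : (x : LaurentSeries K₁) = coeffEmb K₁ jq)
    (W : ModelField K₁ (M * p) ≃ₐ[K₁] ModelField K₁ (M * p))
    (_hW : IsAtkinLehnerModel K₁ M p W)
    (y : ModelField K₁ (M * p)) (_hy : y = x ∨ y = x⁻¹)
    (𝔪 : Ideal ↥(chartClosure A₀ (ModelField K₁ (M * p)) y)) (_h𝔪 : 𝔪.IsPrime)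
    (g : ModelField K₁ (M * p)),
    ((∀ f : ↥(chartClosure A₀ (ModelField K₁ (M * p)) y),
        (f : ModelField K₁ (M * p)) ∈ (vInf K₁ A₀ (M * p)).nonunits → f ∈ 𝔪) →
      g ∈ vInf K₁ A₀ (M * p)) →
    ((∀ f : ↥(chartClosure A₀ (ModelField K₁ (M * p)) y),
        (f : ModelField K₁ (M * p)) ∈ (vZero K₁ A₀ (M * p) W).nonunits → f ∈ 𝔪) →
      g ∈ vZero K₁ A₀ (M * p) W) →
    (∀ V : ValuationSubring (ModelField K₁ (M * p)),
      CentredAt A₀ (ModelField K₁ (M * p)) y 𝔪 V → g ∈ V) →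
    ∃ b : ↥(chartClosure A₀ (ModelField K₁ (M * p)) y), b ∉ 𝔪 ∧
      (b : ModelField K₁ (M * p)) * g ∈ chartClosure A₀ (ModelField K₁ (M * p)) y

end Fermat.Agent.H31.ORD
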