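/-
P-ORD row 1155 (B1-D-HART), part 4 : THE NUMBER FIELD LEVEL.  helper31.

`hm_core` : on the model over a number field `ι : K₁ → ℚ̄`, the model-level local Hartogs statement
`HartModelStatement M p` at the prime ideal `𝔪₁ = {b ∈ B(y₁) | bc b ∈ 𝔐_P}` gives the
`ℚ̄`-level conclusion for a descended `g₁`, given descended witnesses:
* vertical : if the centre of `P` is not on `C_∞` (`C_0`), some `f₁ ∈ B(y₁) ∩ 𝔮_∞` with
  `bc f₁ ∉ 𝔐_P`;
* horizontal : for every pole `P''` of `bc g₁` which is finite in the chart, some `t₁ ∈ B(y₁)`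
  vanishing at `P''` with `bc t₁ ∉ 𝔐_P`.
-/
import Fermat.Agent.H31.ORD.HartBasic
import Fermat.Agent.H31.ORD.HartModelDef
import Fermat.Agent.H66.ORD.DescDict
import Fermat.Agent.H93.KL.DescFinal
import Fermat.Agent.H34.KLM.DVR
import Fermat.Agent.H2.KLBRAdapter

set_option autoImplicit false
set_option linter.unusedSectionVars false
set_option linter.unusedVariables false
set_option linter.style.haveILetI false
set_option maxSynthPendingDepth 3
set_option synthInstance.maxHeartbeats 400000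
set_option maxHeartbeats 1600000

noncomputable section

open AlgebraicCurve ModularCurve

namespace Fermat.Agent.H31.ORD

open Fermat.Agent.H72.FF Fermat.Agent.H18.ORD Fermat.Agent.H66 Fermat.Agent.H84.ORD
open Fermat.Agent.H22.KL Fermat.Agent.H45 Fermat.Agent.H82.SS Fermat.Agent.H7.SS2
open Fermat.Agent.H93.KL Fermat.Agent.H66.ORD

/-- the `j`-function as a rational element -/
def hmWj (N : ℕ) [NeZero N] : ↥(modularFunctionFieldFull N) :=
  ⟨qExpand ℚ 1 jq, jqd_mem_full N (one_dvd N)⟩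

theorem hm_ratBar_wj (N : ℕ) [NeZero N] :
    Fermat.Agent.H62.SS.ratBar (modularFunctionFieldFull N) (hmWj N) = nmJ N := rfl

theorem hm_ratK_wj (N : ℕ) [NeZero N] (K₁ : Type) [Field K₁] [Algebra ℚ K₁] :
    ((Fermat.Agent.H62.SS.ratK (K₁ := K₁) (modularFunctionFieldFull N) (hmWj N) :
      ModelField K₁ N) : LaurentSeries K₁) = coeffEmb K₁ jq := by
  show coeffEmb K₁ (qExpand ℚ 1 jq) = coeffEmb K₁ jq
  rw [qExpand_one_apply]

/-- the chart coordinate of `P` is rational -/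
theorem hm_exists_w {N : ℕ} [NeZero N] (A : ValuationSubring Qb) (P : Place Qb (FLb N)) :
    ∃ w : ↥(modularFunctionFieldFull N),
      Fermat.Agent.H62.SS.ratBar (modularFunctionFieldFull N) w = nmY A P ∧
      (w = hmWj N ∨ w = (hmWj N)⁻¹) := by
  rcases hb_nmY_eq A P with h1 | h1
  · exact ⟨hmWj N, by rw [h1, hm_ratBar_wj], Or.inl rfl⟩
  · exact ⟨(hmWj N)⁻¹, by rw [h1, map_inv₀, hm_ratBar_wj], Or.inr rfl⟩

theorem hm_one_not_mem_nmMax {N : ℕ} [NeZero N] (A : ValuationSubring Qb)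
    (P : Place Qb (FLb N)) : (1 : FLb N) ∉ nmMax A P := by
  refine hb_not_mem_nmMax A P (c := 1) (Or.inl (map_one _).symm) ?_
  intro h
  rw [ValuationSubring.mem_nonunits_iff, map_one] at h
  exact lt_irrefl _ h

section Core

variable (M p : ℕ) [NeZero M] [NeZero p]

/-- `p` is not a unit of `A ∩ K₁`. -/
theorem hm_not_isUnit {K₁ : Type} [Field K₁] [Algebra ℚ K₁] (ι : K₁ →+* Qb)
    (A : ValuationSubring Qb) (hA : A.LiesOverPrime p) :
    ¬ IsUnit ((p : ℕ) : ↥(A.comap ι)) := by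
  have h1 : ((p : ℕ) : ↥(A.comap ι)) = ⟨(p : K₁), by
      rw [ValuationSubring.mem_comap, map_natCast]; exact natCast_mem A p⟩ :=
    Subtype.ext (by simp)
  rw [h1, isUnit_comap_iff, valuationSubring_isUnit_iff]
  rintro ⟨h0, hinv⟩
  have h2 : ((p : ℕ) : Qb) ∈ A.nonunits := hA
  rw [ValuationSubring.mem_nonunits_iff_exists_mem_maximalIdeal] at h2
  obtain ⟨hmem, hmax⟩ := h2
  rw [IsLocalRing.mem_maximalIdeal, mem_nonunits_iff] at hmax
  apply hmax
  rw [valuationSubring_isUnit_iff]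
  refine ⟨?_, ?_⟩
  · simpa using h0
  · simpa using hinv

/-- **The number field level.** -/
theorem hm_core (hH : HartModelStatement M p)
    (A : ValuationSubring Qb) (h : NmSetup M p A) (P : Place Qb (FLb (M * p)))
    {K₁ : Type} [Field K₁] [Algebra ℚ K₁] [FiniteDimensional ℚ K₁] (ι : K₁ →+* Qb)
    [Algebra ↥(A.comap ι) (ModelField K₁ (M * p))]
    [IsScalarTower ↥(A.comap ι) K₁ (ModelField K₁ (M * p))]
    (w : ↥(modularFunctionFieldFull (M * p)))
    (hw : Fermat.Agent.H62.SS.ratBar (modularFunctionFieldFull (M * p)) w = nmY A P)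
    (hwx : w = hmWj (M * p) ∨ w = (hmWj (M * p))⁻¹)
    (g₁ : ModelField K₁ (M * p))
    (hOo : NmIdealOo M p A P →
      klBc ι (modularFunctionFieldFull (M * p)) g₁ ∈ gaussOBar (M * p) A)
    (hZero : NmIdealZero M p h.cop A P →
      klBc ι (modularFunctionFieldFull (M * p)) g₁ ∈ nmV0 M p h.cop A)
    (hI : ¬ NmIdealOo M p A P →
      ∃ f₁ ∈ chartClosure ↥(A.comap ι) (ModelField K₁ (M * p))
          (Fermat.Agent.H62.SS.ratK (K₁ := K₁) (modularFunctionFieldFull (M * p)) w),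
        klBc ι (modularFunctionFieldFull (M * p)) f₁ ∉ nmMax A P ∧
        ∃ hf : klBc ι (modularFunctionFieldFull (M * p)) f₁ ∈ gaussOBar (M * p) A,
          nmRedOo (M * p) A ⟨_, hf⟩ = 0)
    (h0 : ¬ NmIdealZero M p h.cop A P →
      ∃ f₁ ∈ chartClosure ↥(A.comap ι) (ModelField K₁ (M * p))
          (Fermat.Agent.H62.SS.ratK (K₁ := K₁) (modularFunctionFieldFull (M * p)) w),
        klBc ι (modularFunctionFieldFull (M * p)) f₁ ∉ nmMax A P ∧
        ∃ hf : klBc ι (modularFunctionFieldFull (M * p)) f₁ ∈ nmV0 M p h.cop A,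
          nmRed0 M p h.cop A ⟨_, hf⟩ = 0)
    (hT : ∀ P'' : Place Qb (FLb (M * p)),
      P''.ord (klBc ι (modularFunctionFieldFull (M * p)) g₁) < 0 →
      (nmY A P = 0 ∨ 0 ≤ P''.ord (nmY A P)) →
      ∃ t₁ ∈ chartClosure ↥(A.comap ι) (ModelField K₁ (M * p))
          (Fermat.Agent.H62.SS.ratK (K₁ := K₁) (modularFunctionFieldFull (M * p)) w),
        0 < P''.ord (klBc ι (modularFunctionFieldFull (M * p)) t₁) ∧
        klBc ι (modularFunctionFieldFull (M * p)) t₁ ∉ nmMax A P) :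
    ∃ b₁ ∈ chartClosure ↥(A.comap ι) (ModelField K₁ (M * p))
        (Fermat.Agent.H62.SS.ratK (K₁ := K₁) (modularFunctionFieldFull (M * p)) w),
      klBc ι (modularFunctionFieldFull (M * p)) b₁ ∉ nmMax A P ∧
      b₁ * g₁ ∈ chartClosure ↥(A.comap ι) (ModelField K₁ (M * p))
        (Fermat.Agent.H62.SS.ratK (K₁ := K₁) (modularFunctionFieldFull (M * p)) w) := by
  classical
  haveI hdvr : IsDiscreteValuationRing ↥(A.comap ι) :=
    Fermat.Agent.H34.modelDVR K₁ ι A p h.prime h.liesOver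
  have hqA : ¬ IsUnit ((p : ℕ) : ↥(A.comap ι)) := hm_not_isUnit p ι A h.liesOver
  have hpM : ¬ p ∣ M := fun hd =>
    h.prime.one_lt.ne' (Nat.Coprime.eq_one_of_dvd h.cop.symm hd)
  -- the coordinates
  have hx := hm_ratK_wj (M * p) K₁
  have hy₁ : Fermat.Agent.H62.SS.ratK (K₁ := K₁) (modularFunctionFieldFull (M * p)) w =
        Fermat.Agent.H62.SS.ratK (K₁ := K₁) (modularFunctionFieldFull (M * p)) (hmWj (M * p)) ∨
      Fermat.Agent.H62.SS.ratK (K₁ := K₁) (modularFunctionFieldFull (M * p)) w =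
        (Fermat.Agent.H62.SS.ratK (K₁ := K₁) (modularFunctionFieldFull (M * p))
          (hmWj (M * p)))⁻¹ := by
    rcases hwx with h1 | h1
    · exact Or.inl (by rw [h1])
    · exact Or.inr (by rw [h1, map_inv₀])
  have hbcy : klBc ι (modularFunctionFieldFull (M * p))
      (Fermat.Agent.H62.SS.ratK (K₁ := K₁) (modularFunctionFieldFull (M * p)) w) = nmY A P := by
    rw [Fermat.Agent.H62.SS.klBc_ratK, hw]
  -- the Atkin-Lehner automorphism
  obtain ⟨W₁, hW₁, hW₁bc⟩ := exists_modelW M p h.cop ι (K₁ := K₁)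
  -- the chart maps to the composite valuation ring
  have hchart : ∀ b : ModelField K₁ (M * p),
      b ∈ chartClosure ↥(A.comap ι) (ModelField K₁ (M * p))
        (Fermat.Agent.H62.SS.ratK (K₁ := K₁) (modularFunctionFieldFull (M * p)) w) →
      klBc ι (modularFunctionFieldFull (M * p)) b ∈ nmChart (M * p) A (nmY A P) := by
    intro b hb
    have := bc_mem_nmChart (M * p) A ι _ b hb
    rwa [hbcy] at this
  have hcomp : ∀ b : ↥(chartClosure ↥(A.comap ι) (ModelField K₁ (M * p))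
        (Fermat.Agent.H62.SS.ratK (K₁ := K₁) (modularFunctionFieldFull (M * p)) w)),
      klBc ι (modularFunctionFieldFull (M * p)) (b : ModelField K₁ (M * p)) ∈
        nmComp A P (hb_deg P) := fun b =>
    hb_nmChart_le A P (hb_nmY_mem A P) (hchart b b.2)
  let φ : ↥(chartClosure ↥(A.comap ι) (ModelField K₁ (M * p))
        (Fermat.Agent.H62.SS.ratK (K₁ := K₁) (modularFunctionFieldFull (M * p)) w)) →+*
      ↥(nmComp A P (hb_deg P)) :=
    RingHom.codRestrict ((klBc ι (modularFunctionFieldFull (M * p))).comp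
      (chartClosure ↥(A.comap ι) (ModelField K₁ (M * p))
        (Fermat.Agent.H62.SS.ratK (K₁ := K₁) (modularFunctionFieldFull (M * p))
          w)).toSubring.subtype) (nmComp A P (hb_deg P)).toSubring hcomp
  let 𝔪 : Ideal ↥(chartClosure ↥(A.comap ι) (ModelField K₁ (M * p))
        (Fermat.Agent.H62.SS.ratK (K₁ := K₁) (modularFunctionFieldFull (M * p)) w)) :=
    Ideal.comap φ (IsLocalRing.maximalIdeal ↥(nmComp A P (hb_deg P)))
  have h𝔪 : 𝔪.IsPrime := Ideal.comap_isPrime φ _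
  have hmem𝔪 : ∀ b : ↥(chartClosure ↥(A.comap ι) (ModelField K₁ (M * p))
        (Fermat.Agent.H62.SS.ratK (K₁ := K₁) (modularFunctionFieldFull (M * p)) w)),
      b ∈ 𝔪 ↔ klBc ι (modularFunctionFieldFull (M * p)) (b : ModelField K₁ (M * p)) ∈
        nmMax A P := by
    intro b
    rw [← mem_nonunits_nmComp_iff A P (hb_deg P),
      ValuationSubring.mem_nonunits_iff_exists_mem_maximalIdeal]
    constructor
    · intro hb
      exact ⟨hcomp b, hb⟩
    · rintro ⟨_, hb⟩
      exact hb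
  refine Exists.elim
    (hH K₁ ↥(A.comap ι) hqA h.prime hpM _ hx W₁ hW₁ _ hy₁ 𝔪 h𝔪 g₁ ?_ ?_ ?_) ?_
  rotate_right
  · rintro b ⟨hb, hbg⟩
    exact ⟨b, b.2, fun hmax => hb ((hmem𝔪 b).2 hmax), hbg⟩
  · -- the component `∞`
    intro hall
    rw [← bc_mem_gaussOBar_iff ι A (M * p) g₁]
    by_cases hIoo : NmIdealOo M p A P
    · exact hOo hIoo
    · exfalso
      obtain ⟨f₁, hf₁, hf₁max, hf₁g, hf₁red⟩ := hI hIoo
      apply hf₁max
      rw [← hmem𝔪 ⟨f₁, hf₁⟩]
      apply hall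
      rw [← bc_gaussRedBar_eq_zero_iff ι A (M * p) f₁ hf₁g, ← nmRedOo_eq_zero_iff]
      exact hf₁red
  · -- the component `0`
    intro hall
    rw [← bc_mem_nmV0_iff M p h.cop ι A W₁ hW₁bc g₁]
    by_cases hI0 : NmIdealZero M p h.cop A P
    · exact hZero hI0
    · exfalso
      obtain ⟨f₁, hf₁, hf₁max, hf₁g, hf₁red⟩ := h0 hI0
      apply hf₁max
      rw [← hmem𝔪 ⟨f₁, hf₁⟩]
      apply hall
      rw [← bc_nmRed0_eq_zero_iff M p h.cop ι A W₁ hW₁bc f₁ hf₁g]
      exact hf₁red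
  · -- the horizontal places
    rintro V ⟨hVfin, hVc⟩
    by_contra hgV
    let P₁ : Place K₁ (ModelField K₁ (M * p)) :=
      Fermat.Agent.H2.placeOfIsPlace (K0 := K₁) V hVfin.1
    obtain ⟨P'', hP''⟩ := placeDescent (modularFunctionFieldFull (M * p)) K₁ ι P₁
    have hg1 : P₁.ord g₁ < 0 := by
      by_contra hnn
      rw [not_lt] at hnn
      exact hgV (Fermat.Agent.H23.mem_of_ord_nonneg P₁ hnn)
    have hy1 : nmY A P = 0 ∨ 0 ≤ P''.ord (nmY A P) := by
      rw [← hbcy, hP'']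
      rcases (Fermat.Agent.H23.mem_iff_ord P₁).1 hVfin.2 with h1 | h1
      · left
        rw [h1, map_zero]
      · exact Or.inr h1
    obtain ⟨t₁, ht₁, htpos, htmax⟩ := hT P'' (by rw [hP'']; exact hg1) hy1
    apply htmax
    rw [← hmem𝔪 ⟨t₁, ht₁⟩]
    apply hVc
    show t₁ ∈ P₁.toValuationSubring.nonunits
    rw [Fermat.Agent.H2.klbr_mem_nonunits_iff]
    right
    rw [← hP'']
    exact htpos

end Core

end Fermat.Agent.H31.ORD
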