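/-
P-ORD row 1155 (B1-D-HART), part 5 : DESCENT.  helper31.

`nmHartogs_of_model : HartModelStatement M p → NmHartogsStatement M p` : the `ℚ̄`-level local
Hartogs statement [HART] of helper84's `NodalModelAPI` from the model-level statement (H2).

Proof.  Let `g ≠ 0`.  Choose witnesses in the `ℚ̄`-chart `B̄ = nmChart (M p) A (nmY A P)`:
* vertical : if the centre of `P` is not on `C_∞` (`C_0`), `f ∈ B̄ ∩ 𝔮_∞` with `f ∉ 𝔐_P`;
* horizontal : for each of the finitely many poles `P''` of `g` which are finite in the chart,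
  the centre of `P''` differs from the centre of `P` (hypothesis on `g`), so there is `t ∈ B̄`
  vanishing at `P''` with `t ∉ 𝔐_P` (`hb_sep`).
Descend `g` and the finitely many witnesses to a number field `K` (helper66's dictionary) and
apply `hm_core`.
-/
import Fermat.Agent.H31.ORD.HartCore

set_option autoImplicit false
set_option linter.unusedSectionVars false
set_option linter.unusedVariables false
set_option linter.style.haveILetI false
set_option maxSynthPendingDepth 3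
set_option synthInstance.maxHeartbeats 400000
set_option maxHeartbeats 1600000

noncomputable section

open AlgebraicCurve ModularCurve

namespace Fermat.Agent.H31.ORD

open Fermat.Agent.H72.FF Fermat.Agent.H18.ORD Fermat.Agent.H66 Fermat.Agent.H84.ORD
open Fermat.Agent.H22.KL Fermat.Agent.H45 Fermat.Agent.H82.SS Fermat.Agent.H7.SS2
open Fermat.Agent.H93.KL Fermat.Agent.H66.ORD Fermat.Agent.H9.E6

/-- **[HART] from the model-level statement (H2).** -/
theorem nmHartogs_of_model (M p : ℕ) [NeZero M] [NeZero p] (hH : HartModelStatement M p) :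
    NmHartogsStatement M p := by
  classical
  intro A h P g hOo hZero hPoles
  by_cases hg0 : g = 0
  · exact ⟨1, one_mem _, hm_one_not_mem_nmMax A P, by rw [hg0, mul_zero]; exact zero_mem _⟩
  obtain ⟨w, hw, hwx⟩ := hm_exists_w A P
  -- vertical witnesses
  obtain ⟨fI, hfI, hfImax, hfIred⟩ : ∃ fI ∈ nmChart (M * p) A (nmY A P), fI ∉ nmMax A P ∧
      (¬ NmIdealOo M p A P →
        ∃ hf : fI ∈ gaussOBar (M * p) A, nmRedOo (M * p) A ⟨fI, hf⟩ = 0) := by
    by_cases hI : NmIdealOo M p A P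
    · exact ⟨1, one_mem _, hm_one_not_mem_nmMax A P, fun hn => absurd hI hn⟩
    · have hI' := hI
      unfold NmIdealOo at hI'
      push Not at hI'
      obtain ⟨f, hf, hfg, hred, hfm⟩ := hI'
      exact ⟨f, hf, hfm, fun _ => ⟨hfg, hred⟩⟩
  obtain ⟨f0, hf0, hf0max, hf0red⟩ : ∃ f0 ∈ nmChart (M * p) A (nmY A P), f0 ∉ nmMax A P ∧
      (¬ NmIdealZero M p h.cop A P →
        ∃ hf : f0 ∈ nmV0 M p h.cop A, nmRed0 M p h.cop A ⟨f0, hf⟩ = 0) := by
    by_cases hI : NmIdealZero M p h.cop A P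
    · exact ⟨1, one_mem _, hm_one_not_mem_nmMax A P, fun hn => absurd hI hn⟩
    · have hI' := hI
      unfold NmIdealZero at hI'
      push Not at hI'
      obtain ⟨f, hf, hfg, hred, hfm⟩ := hI'
      exact ⟨f, hf, hfm, fun _ => ⟨hfg, hred⟩⟩
  -- horizontal witnesses
  have hfin : {P'' : Place Qb (FLb (M * p)) | P''.ord g ≠ 0}.Finite :=
    Fermat.Agent.H70.SS.ss_finite_support (M * p) g hg0
  have hT : ∀ P'' : Place Qb (FLb (M * p)), ∃ t ∈ nmChart (M * p) A (nmY A P),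
      (P''.ord g < 0 → (nmY A P = 0 ∨ 0 ≤ P''.ord (nmY A P)) →
        0 < P''.ord t ∧ t ∉ nmMax A P) := by
    intro P''
    by_cases hc : P''.ord g < 0 ∧ (nmY A P = 0 ∨ 0 ≤ P''.ord (nmY A P))
    · have hne : nmCentre A P'' ≠ nmCentre A P := by
        intro heq
        rcases hPoles P'' heq with h0 | h0
        · exact hg0 h0
        · exact absurd hc.1 (not_lt.2 h0)
      obtain ⟨t, ht, ht0, htpos, htmax⟩ := hb_sep A P P'' hc.2 hne
      exact ⟨t, ht, fun _ _ => ⟨htpos, htmax⟩⟩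
    · exact ⟨1, one_mem _, fun h1 h2 => absurd ⟨h1, h2⟩ hc⟩
  choose T hTmem hTprop using hT
  -- descent
  obtain ⟨Kg, hKg, hgd⟩ := coeffDescentFinal (modularFunctionFieldFull (M * p))
    (g : LaurentSeries Qb) g.2
  obtain ⟨KI, hKI, hId⟩ := exists_descent_nmChart (A := A) w fI (by rw [hw]; exact hfI)
  obtain ⟨K0, hK0, h0d⟩ := exists_descent_nmChart (A := A) w f0 (by rw [hw]; exact hf0)
  have hTd := fun P'' : Place Qb (FLb (M * p)) =>
    exists_descent_nmChart (A := A) w (T P'') (by rw [hw]; exact hTmem P'')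
  choose KT hKT hTd' using hTd
  let K : IntermediateField ℚ Qb := Kg ⊔ KI ⊔ K0 ⊔ hfin.toFinset.sup KT
  haveI : FiniteDimensional ℚ ↥Kg := hKg
  haveI : FiniteDimensional ℚ ↥KI := hKI
  haveI : FiniteDimensional ℚ ↥K0 := hK0
  haveI : FiniteDimensional ℚ ↥(hfin.toFinset.sup KT) :=
    finiteDimensional_finset_sup hfin.toFinset KT (fun i _ => hKT i)
  haveI : FiniteDimensional ℚ ↥(Kg ⊔ KI) := IntermediateField.finiteDimensional_sup _ _
  haveI : FiniteDimensional ℚ ↥(Kg ⊔ KI ⊔ K0) := IntermediateField.finiteDimensional_sup _ _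
  haveI : FiniteDimensional ℚ ↥K := IntermediateField.finiteDimensional_sup _ _
  have hKg' : Kg ≤ K := le_trans (le_trans le_sup_left le_sup_left) le_sup_left
  have hKI' : KI ≤ K := le_trans (le_trans le_sup_right le_sup_left) le_sup_left
  have hK0' : K0 ≤ K := le_trans le_sup_right le_sup_left
  have hKT' : ∀ P'' ∈ hfin.toFinset, KT P'' ≤ K := fun P'' hP'' =>
    le_trans (Finset.le_sup hP'') le_sup_right
  letI algE : Algebra ↥(A.comap (algebraMap ↥K Qb)) (ModelField ↥K (M * p)) :=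
    modelAlgebra ↥K (A.comap (algebraMap ↥K Qb)) (M * p)
  haveI : IsScalarTower ↥(A.comap (algebraMap ↥K Qb)) ↥K (ModelField ↥K (M * p)) :=
    modelAlgebra_isScalarTower ↥K (A.comap (algebraMap ↥K Qb)) (M * p)
  obtain ⟨g₁s, hg₁mem, hg₁eq⟩ := hgd ↥K (algebraMap ↥K Qb)
    (fun c hc => ⟨⟨c, hKg' hc⟩, rfl⟩)
  have hg₁bc : klBc (algebraMap ↥K Qb) (modularFunctionFieldFull (M * p)) ⟨g₁s, hg₁mem⟩ = g :=
    Subtype.ext hg₁eq
  obtain ⟨fI₁, hfI₁bc, hfI₁mem⟩ := hId K hKI'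
  obtain ⟨f0₁, hf0₁bc, hf0₁mem⟩ := h0d K hK0'
  have hbcy : klBc (algebraMap ↥K Qb) (modularFunctionFieldFull (M * p))
      (Fermat.Agent.H62.SS.ratK (K₁ := ↥K) (modularFunctionFieldFull (M * p)) w) = nmY A P := by
    rw [Fermat.Agent.H62.SS.klBc_ratK, hw]
  obtain ⟨b₁, hb₁, hb₁max, hb₁g⟩ := hm_core M p hH A h P (algebraMap ↥K Qb) w hw hwx
    ⟨g₁s, hg₁mem⟩ (by rw [hg₁bc]; exact hOo) (by rw [hg₁bc]; exact hZero)
    (fun hn => ⟨fI₁, hfI₁mem, by rw [hfI₁bc]; exact hfImax, by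
      obtain ⟨hf, hred⟩ := hfIred hn
      have e : (⟨klBc (algebraMap ↥K Qb) (modularFunctionFieldFull (M * p)) fI₁,
          hfI₁bc.symm ▸ hf⟩ : ↥(gaussOBar (M * p) A)) = ⟨fI, hf⟩ := Subtype.ext hfI₁bc
      exact ⟨hfI₁bc.symm ▸ hf, by rw [e]; exact hred⟩⟩)
    (fun hn => ⟨f0₁, hf0₁mem, by rw [hf0₁bc]; exact hf0max, by
      obtain ⟨hf, hred⟩ := hf0red hn
      have e : (⟨klBc (algebraMap ↥K Qb) (modularFunctionFieldFull (M * p)) f0₁,
          hf0₁bc.symm ▸ hf⟩ : ↥(nmV0 M p h.cop A)) = ⟨f0, hf⟩ := Subtype.ext hf0₁bc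
      exact ⟨hf0₁bc.symm ▸ hf, by rw [e]; exact hred⟩⟩)
    (by
      intro P'' hneg hy
      rw [hg₁bc] at hneg
      have hmem : P'' ∈ hfin.toFinset := by
        rw [Set.Finite.mem_toFinset]
        exact ne_of_lt hneg
      obtain ⟨t₁, ht₁bc, ht₁mem⟩ := hTd' P'' K (hKT' P'' hmem)
      obtain ⟨htpos, htmax⟩ := hTprop P'' hneg hy
      exact ⟨t₁, ht₁mem, by rw [ht₁bc]; exact htpos, by rw [ht₁bc]; exact htmax⟩)
  refine ⟨klBc (algebraMap ↥K Qb) (modularFunctionFieldFull (M * p)) b₁, ?_, hb₁max, ?_⟩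
  · have := bc_mem_nmChart (M * p) A (algebraMap ↥K Qb) _ b₁ hb₁
    rwa [hbcy] at this
  · have := bc_mem_nmChart (M * p) A (algebraMap ↥K Qb) _ _ hb₁g
    rwa [hbcy, map_mul, hg₁bc] at this

end Fermat.Agent.H31.ORD
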