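/-
P-ORD row 1155 (B1-D-HART), part 2 : LOCAL HARTOGS AT A PRIME IDEAL.  helper31.

`hp_localHartogs_prime` : helper4's local Hartogs theorem (`Fermat.Agent.H4.SS.localHartogs`) with
the maximal ideal `𝔪` replaced by a PRIME ideal (no condition `ϖ ∈ 𝔪`).  The proof is helper4's,
verbatim: maximality was only used through primality.
-/
import Fermat.Agent.H4.SS.Hartogs

set_option autoImplicit false
set_option linter.unusedSectionVars false
set_option linter.style.haveILetI false
set_option linter.unusedVariables false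

noncomputable section

open Polynomial

namespace Fermat.Agent.H31.ORD

open Fermat.Agent.H22.KL Fermat.Agent.H45 Fermat.Agent.H4.SS
open Fermat.Agent.H67.KLConn (PiDvd)
open Fermat.Agent.H87.KL (evX IntX GC)

/-- **LOCAL HARTOGS at a prime ideal.** -/
theorem hp_localHartogs_prime
    (A : Type) [CommRing A] [IsDomain A] [IsDiscreteValuationRing A]
    (E : Type) [Field E] [Algebra A E] [CharZero E]
    (hinj : Function.Injective (algebraMap A E))
    (ϖ : A) (hϖ : Irreducible ϖ) (y : E) (hy : Transcendental A y)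
    (hfd : ∃ n : ℕ, Nonempty (Module.Basis (Fin n) (chartField A E y) E))
    (𝔪 : Ideal (chartClosure A E y)) (h𝔪 : 𝔪.IsPrime)
    (z : E) (hzC : z ∈ gaussClosure A E ϖ y)
    (hzV : ∀ V : ValuationSubring E, CentredAt A E y 𝔪 V → z ∈ V) :
    ∃ b : chartClosure A E y, b ∉ 𝔪 ∧ (b : E) * z ∈ chartClosure A E y := by
  classical
  haveI hnoe := Fermat.Agent.H41.SS.chartClosure_isNoetherianRing A E hinj ϖ hϖ y hy hfd
  haveI hfr := Fermat.Agent.H41.SS.chartClosure_isFractionRing A E y hy hfd
  haveI hic := chartClosure_isIntegrallyClosed A E y hy hfd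
  haveI h𝔪p : 𝔪.IsPrime := h𝔪
  have hinjB : Function.Injective (algebraMap ↥(chartClosure A E y) E) :=
    IsFractionRing.injective _ E
  suffices hcore : ∃ b : ↥(chartClosure A E y), b ∉ 𝔪 ∧
      algebraMap ↥(chartClosure A E y) E b * z ∈ (algebraMap ↥(chartClosure A E y) E).range by
    obtain ⟨b, hb, c, hc⟩ := hcore
    refine ⟨b, hb, ?_⟩
    have : (b : E) * z = (c : E) := hc.symm
    rw [this]
    exact c.2
  apply hartogs_core 𝔪 z
  intro P V hP hP𝔪 hP0 hV hpid hht
  have hone : (1 : ↥(chartClosure A E y)) ∉ P := (Ideal.ne_top_iff_one P).1 hP.ne_top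
  by_cases hϖP : algebraMap A ↥(chartClosure A E y) ϖ ∈ P
  · -- the vertical case: going down
    letI : Algebra A[X] ↥(chartClosure A E y) := (hartogsPolyHom A E y).toRingHom.toAlgebra
    haveI : FaithfulSMul A[X] ↥(chartClosure A E y) :=
      (faithfulSMul_iff_algebraMap_injective A[X] ↥(chartClosure A E y)).mpr
        (hartogsPolyHom_injective A E hy)
    haveI : Algebra.IsIntegral A[X] ↥(chartClosure A E y) :=
      ⟨fun b => hartogs_isIntegralElem A E y b⟩
    haveI : IsIntegrallyClosed A[X] := inferInstance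
    haveI : Algebra.HasGoingDown A[X] ↥(chartClosure A E y) := inferInstance
    have hCϖ : algebraMap A[X] ↥(chartClosure A E y) (C ϖ) =
        algebraMap A ↥(chartClosure A E y) ϖ := (hartogsPolyHom A E y).commutes ϖ
    have hprimeC : Prime (C ϖ : A[X]) := Polynomial.prime_C_iff.mpr hϖ.prime
    haveI hp₀ : (Ideal.span {(C ϖ : A[X])}).IsPrime :=
      (Ideal.span_singleton_prime hprimeC.ne_zero).2 hprimeC
    haveI hPi : P.IsPrime := hP
    haveI hlo : P.LiesOver (P.under A[X]) := ⟨rfl⟩
    have hle : Ideal.span {(C ϖ : A[X])} ≤ P.under A[X] := by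
      rw [Ideal.span_singleton_le_iff_mem, Ideal.mem_comap, hCϖ]
      exact hϖP
    have hnlt : ¬ Ideal.span {(C ϖ : A[X])} < P.under A[X] := by
      intro hlt
      obtain ⟨Q, hQlt, hQp, hQlo⟩ := Ideal.exists_ideal_lt_liesOver_of_lt P hlt
      rcases hht Q hQp hQlt.le with h0 | h1
      · have h2 : (C ϖ : A[X]) ∈ Q.under A[X] := by
          rw [← hQlo.over]
          exact Ideal.mem_span_singleton_self _
        rw [Ideal.mem_comap, hCϖ, h0, Ideal.mem_bot] at h2
        have h3 : algebraMap A E ϖ = 0 := congrArg Subtype.val h2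
        exact hϖ.ne_zero (hinj (by rw [h3, map_zero]))
      · exact hQlt.ne h1
    have heq : P.under A[X] = Ideal.span {(C ϖ : A[X])} :=
      (eq_of_le_of_not_lt hle hnlt).symm
    obtain ⟨h, hh, hnd, hhz⟩ := hzC
    obtain ⟨H, rfl⟩ := (Fermat.Agent.H87.KL.mem_chartRing_iff y h).1 hh
    rw [Fermat.Agent.H87.KL.piDvd_aeval_iff hy] at hnd
    refine ⟨hartogsPolyHom A E y H, ?_, ⟨⟨_, hhz⟩, rfl⟩⟩
    intro hHP
    apply hnd
    have : H ∈ P.under A[X] := hHP
    rw [heq, Ideal.mem_span_singleton] at this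
    exact this
  · -- the horizontal case: `B_P` is a place centred at `𝔪`
    have hBV : ∀ b : ↥(chartClosure A E y), (b : E) ∈ V := fun b =>
      (hV _).2 ⟨1, hone, b, by rw [map_one, one_mul]; rfl⟩
    have hne0 : ∀ s : ↥(chartClosure A E y), s ∉ P → (s : E) ≠ 0 := by
      intro s hs h0
      apply hs
      have : s = 0 := Subtype.ext h0
      rw [this]
      exact P.zero_mem
    have hinvV : ∀ s : ↥(chartClosure A E y), s ∉ P → (s : E)⁻¹ ∈ V := fun s hs =>
      (hV _).2 ⟨s, hs, 1, by
        rw [map_one]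
        exact (mul_inv_cancel₀ (hne0 s hs)).symm⟩
    have hAP : ∀ a : A, a ≠ 0 → algebraMap A ↥(chartClosure A E y) a ∉ P := by
      intro a ha haP
      obtain ⟨n, hn⟩ := IsDiscreteValuationRing.associated_pow_irreducible ha hϖ
      obtain ⟨u, hu⟩ := hn.symm
      rw [← hu, map_mul, map_pow] at haP
      rcases hP.mem_or_mem haP with h1 | h1
      · exact hϖP (hP.mem_of_pow_mem n h1)
      · exact hP.ne_top (Ideal.eq_top_of_isUnit_mem _ h1 (u.isUnit.map _))
    have hcen : CentredAt A E y 𝔪 V := by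
      refine ⟨⟨⟨?_, hpid, ?_⟩, ?_⟩, ?_⟩
      · intro htop
        obtain ⟨b, hb, hb0⟩ := Submodule.exists_mem_ne_zero_of_ne_bot hP0
        have hbV : (b : E)⁻¹ ∈ V := by rw [htop]; trivial
        obtain ⟨s, hs, c, hc⟩ := (hV _).1 hbV
        apply hs
        have hb0' : (b : E) ≠ 0 := fun h => hb0 (Subtype.ext h)
        have hsc : s = c * b := by
          apply hinjB
          rw [map_mul, hc]
          show (s : E) = (s : E) * (b : E)⁻¹ * (b : E)
          field_simp
        rw [hsc]
        exact Ideal.mul_mem_left _ _ hb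
      · intro a ha
        exact ⟨hBV (algebraMap A ↥(chartClosure A E y) a),
          hinvV (algebraMap A ↥(chartClosure A E y) a) (hAP a ha)⟩
      · have hyB : y ∈ chartClosure A E y := by
          have := Fermat.Agent.H41.SS.etale_aeval_mem_chartClosure A E y (X : A[X])
          rwa [aeval_X] at this
        exact hBV ⟨y, hyB⟩
      · intro s hs
        apply hP𝔪
        by_contra hsP
        have hsinv := hinvV s hsP
        rw [ValuationSubring.mem_nonunits_iff] at hs
        rw [← V.valuation_le_one_iff, map_inv₀] at hsinv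
        have h3 : 0 < V.valuation (s : E) :=
          lt_of_le_of_ne zero_le (Ne.symm ((_root_.map_ne_zero _).2 (hne0 s hsP)))
        exact absurd ((one_lt_inv₀ h3).2 hs) (not_lt.2 hsinv)
    exact (hV z).1 (hzV V hcen)


end Fermat.Agent.H31.ORD

end
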