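/-
P-ORD row 1155 (B1-D-HART), part 6 : THE MODEL-LEVEL STATEMENT (H2).  helper31.

`hartModel : HartModelStatement M p` : local Hartogs on the model at a prime ideal `𝔪`, with the
vertical hypothesis split along the two components.

Proof.  If `𝔮_∞ ⊄ 𝔪` choose `f ∈ B ∩ 𝔮_∞`, `f ∉ 𝔪`; as `V_∞` is a discrete valuation ring with
uniformiser `ϖ`, `fⁿ g ∈ V_∞` for some `n`.  Same for `V_0`.  So `s g ∈ V_∞ ∩ V_0 = C(j)` for some
`s ∈ B ∖ 𝔪`, and `s g` has no pole at the places centred at `𝔪`; conclude by local Hartogs at the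
prime `𝔪` (`hp_localHartogs_prime`).
-/
import Fermat.Agent.H31.ORD.HartModelDef
import Fermat.Agent.H31.ORD.HartPrime
import Fermat.Agent.H31.SS.Separate
import Fermat.Agent.H58.KL.ModelTr
import Fermat.Agent.H57.SS.ModelFinite
import Fermat.Agent.H89.KLGauss

set_option autoImplicit false
set_option linter.unusedSectionVars false
set_option linter.unusedVariables false
set_option linter.style.haveILetI false
set_option maxSynthPendingDepth 3
set_option synthInstance.maxHeartbeats 400000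
set_option maxHeartbeats 1600000

noncomputable section

open ModularCurve

namespace Fermat.Agent.H31.ORD

open Fermat.Agent.H22.KL Fermat.Agent.H45 Fermat.Agent.H82.SS Fermat.Agent.H7.SS2
open Fermat.Agent.H7.SS

/-- In a valuation ring with uniformiser `t` and factorisation, a suitable power of a non-unit
`f` clears the pole of `g`. -/
theorem hv_exists_pow_mul_mem {E : Type*} [Field E] (V : ValuationSubring E) (t : E)
    (ht0 : t ≠ 0) (hdiv : ∀ y ∈ V.nonunits, y / t ∈ V)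
    (hfac : ∀ x ∈ V, x ≠ 0 → ∃ n : ℕ, x / t ^ n ∈ V ∧ t ^ n / x ∈ V)
    {f : E} (hf : f ∈ V.nonunits) (g : E) : ∃ n : ℕ, f ^ n * g ∈ V := by
  by_cases hg : g ∈ V
  · exact ⟨0, by simpa using hg⟩
  · have hg0 : g ≠ 0 := fun h => hg (h ▸ V.zero_mem)
    have hgi : g⁻¹ ∈ V := (V.mem_or_inv_mem g).resolve_left hg
    obtain ⟨n, -, h2⟩ := hfac g⁻¹ hgi (inv_ne_zero hg0)
    refine ⟨n, ?_⟩
    have h3 : (f / t) ^ n ∈ V := pow_mem (hdiv f hf) n
    have e : f ^ n * g = (f / t) ^ n * (t ^ n / g⁻¹) := by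
      rw [div_pow, div_inv_eq_mul, ← mul_assoc, div_mul_cancel₀ _ (pow_ne_zero n ht0)]
    rw [e]
    exact V.mul_mem _ _ h3 h2

section Model

variable {K₁ : Type} [Field K₁] [Algebra ℚ K₁] {A₀ : Type} [CommRing A₀] [IsDomain A₀]
  [IsDiscreteValuationRing A₀] [Algebra A₀ K₁] [IsFractionRing A₀ K₁] {N : ℕ}
  [Algebra A₀ (ModelField K₁ N)] [IsScalarTower A₀ K₁ (ModelField K₁ N)]

/-- factorisation in `V_∞` -/
theorem hv_factor_vInf {ϖ : A₀} (hϖ : Irreducible ϖ) (x : ModelField K₁ N)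
    (hx : x ∈ vInf K₁ A₀ N) (hx0 : x ≠ 0) :
    ∃ n : ℕ, x / algebraMap A₀ (ModelField K₁ N) ϖ ^ n ∈ vInf K₁ A₀ N ∧
      algebraMap A₀ (ModelField K₁ N) ϖ ^ n / x ∈ vInf K₁ A₀ N := by
  rw [algebraMap_uniformiser]
  exact gaussVal_factor _ (hasGNF_model K₁ A₀ N) hϖ x hx hx0

/-- factorisation in `V_0` -/
theorem hv_factor_vZero (W : ModelField K₁ N ≃ₐ[K₁] ModelField K₁ N) {ϖ : A₀}
    (hϖ : Irreducible ϖ) (x : ModelField K₁ N)
    (hx : x ∈ vZero K₁ A₀ N W) (hx0 : x ≠ 0) :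
    ∃ n : ℕ, x / algebraMap A₀ (ModelField K₁ N) ϖ ^ n ∈ vZero K₁ A₀ N W ∧
      algebraMap A₀ (ModelField K₁ N) ϖ ^ n / x ∈ vZero K₁ A₀ N W := by
  have hWx0 : W x ≠ 0 := (EmbeddingLike.map_ne_zero_iff).2 hx0
  obtain ⟨n, h3, h4⟩ := gaussVal_factor _ (hasGNF_model K₁ A₀ N) hϖ (W x)
    ((mem_vZero_iff W x).1 hx) hWx0
  have hW : W (algebraMap A₀ (ModelField K₁ N) ϖ) = algebraMap A₀ (ModelField K₁ N) ϖ := by
    rw [algebraMap_uniformiser, W.commutes]
  refine ⟨n, ?_, ?_⟩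
  · rw [mem_vZero_iff, map_div₀, map_pow, hW, algebraMap_uniformiser]
    exact h3
  · rw [mem_vZero_iff, map_div₀, map_pow, hW, algebraMap_uniformiser]
    exact h4

/-- powers of non-units of `V_∞` clear poles along `C_∞` -/
theorem hv_pow_vInf {ϖ : A₀} (hϖ : Irreducible ϖ) {f : ModelField K₁ N}
    (hf : f ∈ (vInf K₁ A₀ N).nonunits) (g : ModelField K₁ N) :
    ∃ n : ℕ, f ^ n * g ∈ vInf K₁ A₀ N := by
  obtain ⟨h0, -, h2⟩ := isUniformiser_vInf (K₁ := K₁) (N := N) hϖ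
  exact hv_exists_pow_mul_mem _ _ h0 h2 (hv_factor_vInf hϖ) hf g

/-- powers of non-units of `V_0` clear poles along `C_0` -/
theorem hv_pow_vZero (W : ModelField K₁ N ≃ₐ[K₁] ModelField K₁ N) {ϖ : A₀}
    (hϖ : Irreducible ϖ) {f : ModelField K₁ N}
    (hf : f ∈ (vZero K₁ A₀ N W).nonunits) (g : ModelField K₁ N) :
    ∃ n : ℕ, f ^ n * g ∈ vZero K₁ A₀ N W := by
  obtain ⟨h0, -, h2⟩ := isUniformiser_vZero (K₁ := K₁) (N := N) W hϖ
  exact hv_exists_pow_mul_mem _ _ h0 h2 (hv_factor_vZero W hϖ) hf g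

end Model

/-- **(H2) MODEL-LEVEL LOCAL HARTOGS WITH COMPONENT HYPOTHESES.** -/
theorem hartModel (M p : ℕ) [NeZero M] [NeZero p] : HartModelStatement M p := by
  classical
  intro K₁ _ _ _ A₀ _ _ _ _ _ _ _ hqA hp hpM x hx W hW y hy 𝔪 h𝔪 g hOo hZero hV
  haveI : CharZero K₁ := charZero_of_injective_algebraMap (algebraMap ℚ K₁).injective
  haveI : CharZero (ModelField K₁ (M * p)) :=
    charZero_of_injective_algebraMap (algebraMap K₁ (ModelField K₁ (M * p))).injective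
  have hinj : Function.Injective (algebraMap A₀ (ModelField K₁ (M * p))) := by
    rw [IsScalarTower.algebraMap_eq A₀ K₁ (ModelField K₁ (M * p))]
    exact (algebraMap K₁ (ModelField K₁ (M * p))).injective.comp
      (IsFractionRing.injective A₀ K₁)
  obtain ⟨ϖ, hϖ⟩ := IsDiscreteValuationRing.exists_irreducible A₀
  have htr : Transcendental A₀ x := Fermat.Agent.H58.modelTranscendental_jq (M * p) K₁ A₀ x hx
  have hfd := Fermat.Agent.H57.SS.modelFinite (M * p) K₁ A₀ x hx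
  -- the chart `y`
  have htry : Transcendental A₀ y := by
    rcases hy with rfl | rfl
    · exact htr
    · exact Fermat.Agent.H89.klg_transcendental_inv htr
  have hfdy : ∃ n : ℕ, Nonempty (Module.Basis (Fin n)
      (chartField A₀ (ModelField K₁ (M * p)) y) (ModelField K₁ (M * p))) := by
    rcases hy with rfl | rfl
    · exact hfd
    · rw [Fermat.Agent.H89.klg_chartField_inv]
      exact hfd
  -- `B(y) ⊆ C(y) = C(x) = V_∞ ∩ V_0`
  have hCy : ∀ z : ModelField K₁ (M * p),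
      z ∈ gaussClosure A₀ (ModelField K₁ (M * p)) ϖ y ↔
        z ∈ gaussClosure A₀ (ModelField K₁ (M * p)) ϖ x := by
    intro z
    rcases hy with rfl | rfl
    · exact Iff.rfl
    · constructor
      · intro hz
        have := Fermat.Agent.H89.klg_gaussClosure_le_inv
          (Fermat.Agent.H89.klg_transcendental_inv htr) hz
        rwa [inv_inv] at this
      · intro hz
        exact Fermat.Agent.H89.klg_gaussClosure_le_inv htr hz
  have hBV : ∀ b : ↥(chartClosure A₀ (ModelField K₁ (M * p)) y),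
      (b : ModelField K₁ (M * p)) ∈ vInf K₁ A₀ (M * p) ∧
      (b : ModelField K₁ (M * p)) ∈ vZero K₁ A₀ (M * p) W := by
    intro b
    apply mem_vInf_vZero_of_mem_gaussClosure M p K₁ A₀ hqA ϖ hϖ x hx W hW
    rw [← hCy]
    exact Fermat.Agent.H89.klg_chartClosure_le_gaussClosure hϖ htry b.2
  -- the vertical multipliers
  obtain ⟨sI, hsI, hsIg⟩ : ∃ s : ↥(chartClosure A₀ (ModelField K₁ (M * p)) y), s ∉ 𝔪 ∧
      (s : ModelField K₁ (M * p)) * g ∈ vInf K₁ A₀ (M * p) := by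
    by_cases hall : ∀ f : ↥(chartClosure A₀ (ModelField K₁ (M * p)) y),
        (f : ModelField K₁ (M * p)) ∈ (vInf K₁ A₀ (M * p)).nonunits → f ∈ 𝔪
    · refine ⟨1, (Ideal.ne_top_iff_one 𝔪).1 h𝔪.ne_top, ?_⟩
      rw [OneMemClass.coe_one, one_mul]
      exact hOo hall
    · push Not at hall
      obtain ⟨f, hf, hf𝔪⟩ := hall
      obtain ⟨n, hn⟩ := hv_pow_vInf hϖ hf g
      exact ⟨f ^ n, fun h => hf𝔪 (h𝔪.mem_of_pow_mem n h), by
        rw [SubmonoidClass.coe_pow]; exact hn⟩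
  obtain ⟨s0, hs0, hs0g⟩ : ∃ s : ↥(chartClosure A₀ (ModelField K₁ (M * p)) y), s ∉ 𝔪 ∧
      (s : ModelField K₁ (M * p)) * g ∈ vZero K₁ A₀ (M * p) W := by
    by_cases hall : ∀ f : ↥(chartClosure A₀ (ModelField K₁ (M * p)) y),
        (f : ModelField K₁ (M * p)) ∈ (vZero K₁ A₀ (M * p) W).nonunits → f ∈ 𝔪
    · refine ⟨1, (Ideal.ne_top_iff_one 𝔪).1 h𝔪.ne_top, ?_⟩
      rw [OneMemClass.coe_one, one_mul]
      exact hZero hall
    · push Not at hall
      obtain ⟨f, hf, hf𝔪⟩ := hall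
      obtain ⟨n, hn⟩ := hv_pow_vZero W hϖ hf g
      exact ⟨f ^ n, fun h => hf𝔪 (h𝔪.mem_of_pow_mem n h), by
        rw [SubmonoidClass.coe_pow]; exact hn⟩
  -- `z = sI s0 g ∈ C(y)` without pole at the places centred at `𝔪`
  have hzC : ((sI * s0 : ↥(chartClosure A₀ (ModelField K₁ (M * p)) y)) :
      ModelField K₁ (M * p)) * g ∈ gaussClosure A₀ (ModelField K₁ (M * p)) ϖ y := by
    rw [hCy]
    apply mem_gaussClosure_of_mem_vInf_vZero M p K₁ A₀ hqA ϖ hϖ x hx W hW hp hpM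
    · have e : ((sI * s0 : ↥(chartClosure A₀ (ModelField K₁ (M * p)) y)) :
          ModelField K₁ (M * p)) * g =
          (s0 : ModelField K₁ (M * p)) * ((sI : ModelField K₁ (M * p)) * g) := by
        rw [MulMemClass.coe_mul]; ring
      rw [e]
      exact (vInf K₁ A₀ (M * p)).mul_mem _ _ (hBV s0).1 hsIg
    · have e : ((sI * s0 : ↥(chartClosure A₀ (ModelField K₁ (M * p)) y)) :
          ModelField K₁ (M * p)) * g =
          (sI : ModelField K₁ (M * p)) * ((s0 : ModelField K₁ (M * p)) * g) := by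
        rw [MulMemClass.coe_mul]; ring
      rw [e]
      exact (vZero K₁ A₀ (M * p) W).mul_mem _ _ (hBV sI).2 hs0g
  have hzV : ∀ V : ValuationSubring (ModelField K₁ (M * p)),
      CentredAt A₀ (ModelField K₁ (M * p)) y 𝔪 V →
      ((sI * s0 : ↥(chartClosure A₀ (ModelField K₁ (M * p)) y)) :
        ModelField K₁ (M * p)) * g ∈ V := by
    intro V hVc
    exact V.mul_mem _ _ (Fermat.Agent.H31.SS.mem_of_mem_chartClosure hVc.1 (sI * s0).2)
      (hV V hVc)
  obtain ⟨b, hb, hbz⟩ := hp_localHartogs_prime A₀ (ModelField K₁ (M * p)) hinj ϖ hϖ y htry hfdy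
    𝔪 h𝔪 _ hzC hzV
  refine ⟨b * (sI * s0), ?_, ?_⟩
  · intro hmem
    rcases h𝔪.mem_or_mem hmem with h1 | h1
    · exact hb h1
    · rcases h𝔪.mem_or_mem h1 with h2 | h2
      · exact hsI h2
      · exact hs0 h2
  · have e : ((b * (sI * s0) : ↥(chartClosure A₀ (ModelField K₁ (M * p)) y)) :
        ModelField K₁ (M * p)) * g =
        (b : ModelField K₁ (M * p)) *
          (((sI * s0 : ↥(chartClosure A₀ (ModelField K₁ (M * p)) y)) :
            ModelField K₁ (M * p)) * g) := by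
      rw [MulMemClass.coe_mul]; ring
    rw [e]
    exact hbz

end Fermat.Agent.H31.ORD
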