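/-
P-ORD row 1155 (B1-D-HART) : **[HART]** LOCAL HARTOGS at the `ℚ̄`-level, unconditionally.  helper31.

`nmHartogs M p : Fermat.Agent.H84.ORD.NmHartogsStatement M p`.
-/
import Fermat.Agent.H31.ORD.HartMain
import Fermat.Agent.H31.ORD.HartModel

set_option autoImplicit false

namespace Fermat.Agent.H31.ORD

/-- **[HART]** : if `g` has no pole along the components through the centre `𝔪` of `P` and no
pole at the places centred at `𝔪`, then `s g ∈ B̄` for some `s ∈ B̄ ∖ 𝔪`. -/
theorem nmHartogs (M p : ℕ) [NeZero M] [NeZero p] :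
    Fermat.Agent.H84.ORD.NmHartogsStatement M p :=
  nmHartogs_of_model M p (hartModel M p)

end Fermat.Agent.H31.ORD
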